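import Fermat.Agent.HW.AtP.Little

/-!
# S40 / W-SIDE : the only statement on `W[p]` at the good prime `p` which TOP-40 consumes

OWNER: helper52 (project `HW/AtP`).  Paper proof: board #1536 (E-ord'), (E-ss); #1608 (helper52's elementary proof).
-/

set_option autoImplicit false

namespace Fermat.Agent.S40

open Fermat.Agent.GAL Fermat.Agent.S58

local notation "Qbar" => AlgebraicClosure ℚ
local notation "GQ" => (AlgebraicClosure ℚ ≃ₐ[ℚ] AlgebraicClosure ℚ)

/-- **[W-SIDE]** -/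
theorem littleRam_of_good (W : WeierstrassCurve ℤ) {p : ℕ} [NeZero p] (hp : p.Prime) (hp2 : p ≠ 2)
    (hgood : W.IsGoodPrimeFor p) (A : ValuationSubring Qbar) (hA : A.LiesOverPrime p)
    (P t : EQ W) (hP : p • P = 0) (ht : p • t = 0) (ht0 : t ≠ 0) (hχ : ActsChi p A t)
    (_hPt : ∀ τ ∈ A.inertiaSubgroupIn ℚ, ∃ k : ℕ, τ • P - P = k • t) : LittleRam p A P :=
  HW.AtP.littleRam_of_actsChi W hp hp2 hgood hA ht0 ht hP hχ

end Fermat.Agent.S40
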